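import Mathlib.Analysis.SpecialFunctions.Log.Basic
import Mathlib.MeasureTheory.Integral.Bochner.SumMeasure
import Mathlib.Dynamics.Ergodic.MeasurePreserving
import Mathlib.Probability.Martingale.Convergence

/-!
# Cylinders of a finite partition under a map

The information of an `n`-cylinder is a sum along the orbit of conditional informations given the
future, which satisfy the maximal inequality of Chung and Breiman.
-/

set_option autoImplicit false

noncomputable section

open MeasureTheory Filter Topology

namespace FA.ShannonMcMillan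

variable {α ι : Type*} {mα : MeasurableSpace α} {μ : Measure α} {T : α → α} {P : α → ι}

/-- The names of the first `n` points of an orbit. -/
def word (T : α → α) (P : α → ι) (n : ℕ) (x : α) : Fin n → ι := fun j => P (T^[(j : ℕ)] x)

/-- The `n`-cylinder of a point. -/
def cyl (T : α → α) (P : α → ι) (n : ℕ) (x : α) : Set α := word T P n ⁻¹' {word T P n x}

/-- The information of the `n`-cylinder. -/
def info (μ : Measure α) (T : α → α) (P : α → ι) (n : ℕ) (x : α) : ℝ :=
  -Real.log (μ.real (cyl T P n x))

/-- The information of the present given `n` steps of the future. -/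
def gap (μ : Measure α) (T : α → α) (P : α → ι) (n : ℕ) (x : α) : ℝ :=
  info μ T P (n + 1) x - info μ T P n (T x)

/-- The probability of the present given a word of the future. -/
def cond (μ : Measure α) (T : α → α) (P : α → ι) (n : ℕ) (i : ι) (w : Fin n → ι) : ℝ :=
  μ.real (P ⁻¹' {i} ∩ (word T P n ∘ T) ⁻¹' {w}) / μ.real ((word T P n ∘ T) ⁻¹' {w})

theorem mem_cyl {n : ℕ} {x y : α} :
    y ∈ cyl T P n x ↔ ∀ i < n, P (T^[i] y) = P (T^[i] x) := by
  simp [cyl, word, funext_iff, Fin.forall_iff]

theorem cyl_succ (T : α → α) (P : α → ι) (n : ℕ) (x : α) :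
    cyl T P (n + 1) x = P ⁻¹' {P x} ∩ (word T P n ∘ T) ⁻¹' {word T P n (T x)} := by
  ext y
  simp [cyl, word, funext_iff, Fin.forall_fin_succ, Function.iterate_succ_apply]

theorem info_eq_sum_gap [IsProbabilityMeasure μ] : ∀ (n : ℕ) (x : α),
    info μ T P n x = ∑ j ∈ Finset.range n, gap μ T P (n - 1 - j) (T^[j] x)
  | 0, x => by
    have : cyl T P 0 x = Set.univ := by ext y; simp [mem_cyl]
    simp [info, this]
  | n + 1, x => by
    rw [Finset.sum_range_succ', Function.iterate_zero_apply, Nat.add_sub_cancel, Nat.sub_zero]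
    have h := info_eq_sum_gap n (T x)
    have e : ∑ j ∈ Finset.range n, gap μ T P (n - (j + 1)) (T^[j + 1] x) =
        info μ T P n (T x) := by
      rw [h]
      refine Finset.sum_congr rfl fun j _ => ?_
      rw [Function.iterate_succ_apply, Nat.sub_add_eq, Nat.sub_right_comm]
    rw [e, gap]
    ring

theorem info_nonneg [IsProbabilityMeasure μ] (n : ℕ) (x : α) : 0 ≤ info μ T P n x :=
  neg_nonneg.2 (Real.log_nonpos measureReal_nonneg measureReal_le_one)

theorem cond_le_one [IsFiniteMeasure μ] (n : ℕ) (i : ι) (w : Fin n → ι) :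
    cond μ T P n i w ≤ 1 :=
  div_le_one_of_le₀ (measureReal_mono Set.inter_subset_right) measureReal_nonneg

variable [Fintype ι] [MeasurableSpace ι] [MeasurableSingletonClass ι]

omit [Fintype ι] [MeasurableSingletonClass ι] in
theorem measurable_word (hT : Measurable T) (hP : Measurable P) (n : ℕ) :
    Measurable (word T P n) :=
  measurable_pi_iff.2 fun j => hP.comp (hT.iterate j)

theorem measurable_info (hT : Measurable T) (hP : Measurable P) (n : ℕ) :
    Measurable (info μ T P n) :=
  (measurable_of_finite fun w => -Real.log (μ.real (word T P n ⁻¹' {w}))).comp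
    (measurable_word hT hP n)

theorem integrable_info [IsFiniteMeasure μ] (hT : Measurable T) (hP : Measurable P) (n : ℕ) :
    Integrable (info μ T P n) μ :=
  (Integrable.of_finite (f := fun w => -Real.log (μ.real (word T P n ⁻¹' {w})))).comp_measurable
    (measurable_word hT hP n)

theorem measurable_gap (hT : Measurable T) (hP : Measurable P) (n : ℕ) :
    Measurable (gap μ T P n) :=
  (measurable_info hT hP (n + 1)).sub ((measurable_info hT hP n).comp hT)

theorem integrable_gap [IsFiniteMeasure μ] (hT : MeasurePreserving T μ μ) (hP : Measurable P)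
    (n : ℕ) : Integrable (gap μ T P n) μ :=
  (integrable_info hT.measurable hP (n + 1)).sub
    (hT.integrable_comp_of_integrable (integrable_info hT.measurable hP n))

theorem sum_cond [IsFiniteMeasure μ] (hT : Measurable T) (hP : Measurable P) (n : ℕ) (i : ι)
    (S : Finset (Fin n → ι)) :
    ∑ w ∈ S, cond μ T P n i w * μ.real ((word T P n ∘ T) ⁻¹' {w}) =
      μ.real (P ⁻¹' {i} ∩ (word T P n ∘ T) ⁻¹' S) := by
  have hW : Measurable (word T P n ∘ T) := (measurable_word hT hP n).comp hT
  have e : ∀ s : Set (Fin n → ι), (μ.restrict (P ⁻¹' {i})).real ((word T P n ∘ T) ⁻¹' s) =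
      μ.real (P ⁻¹' {i} ∩ (word T P n ∘ T) ⁻¹' s) := fun s => by
    rw [measureReal_restrict_apply (hW s.toFinite.measurableSet), Set.inter_comm]
  rw [← e, ← sum_measureReal_preimage_singleton S fun w _ => hW (measurableSet_singleton w)]
  refine Finset.sum_congr rfl fun w _ => ?_
  rw [e, cond]
  exact div_mul_cancel_of_imp fun h => le_antisymm
    (h ▸ measureReal_mono Set.inter_subset_right) measureReal_nonneg

/-- The probability of the present given the future is the conditional expectation. -/
theorem cond_ae_eq_condExp [IsFiniteMeasure μ] (hT : Measurable T) (hP : Measurable P) (n : ℕ)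
    (i : ι) :
    (fun x => cond μ T P n i (word T P n (T x))) =ᵐ[μ]
      μ[(P ⁻¹' {i}).indicator (fun _ => (1 : ℝ)) |
        MeasurableSpace.comap (word T P n ∘ T) inferInstance] := by
  classical
  have hW : Measurable (word T P n ∘ T) := (measurable_word hT hP n).comp hT
  refine ae_eq_condExp_of_forall_setIntegral_eq hW.comap_le
    ((integrable_const 1).indicator (hP (measurableSet_singleton i)))
    (fun s _ _ => ((Integrable.of_finite (f := cond μ T P n i)).comp_measurable hW).integrableOn)
    (fun s hs _ => ?_)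
    (((measurable_of_finite (cond μ T P n i)).comp
      (comap_measurable (word T P n ∘ T))).stronglyMeasurable.aestronglyMeasurable)
  obtain ⟨S, hS, rfl⟩ := hs
  rw [setIntegral_indicator (hP (measurableSet_singleton i)), setIntegral_const, smul_eq_mul,
    mul_one, Set.inter_comm]
  calc ∫ x in (word T P n ∘ T) ⁻¹' S, cond μ T P n i (word T P n (T x)) ∂μ
      = ∫ w in (S.toFinset : Set (Fin n → ι)), cond μ T P n i w ∂(μ.map (word T P n ∘ T)) := by
        rw [Set.coe_toFinset, setIntegral_map hS
          (measurable_of_finite _).stronglyMeasurable.aestronglyMeasurable hW.aemeasurable]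
        rfl
    _ = ∑ w ∈ S.toFinset, cond μ T P n i w * μ.real ((word T P n ∘ T) ⁻¹' {w}) := by
        rw [setIntegral_finset _ Integrable.of_finite.integrableOn]
        refine Finset.sum_congr rfl fun w _ => ?_
        rw [map_measureReal_apply hW (measurableSet_singleton w), smul_eq_mul, mul_comm]
    _ = _ := by rw [sum_cond hT hP, Set.coe_toFinset]

omit [MeasurableSpace ι] [MeasurableSingletonClass ι] in
/-- Almost every point has all its cylinders of positive measure. -/
theorem ae_cyl_pos [IsFiniteMeasure μ] :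
    ∀ᵐ x ∂μ, ∀ n, 0 < μ.real (cyl T P n x) := by
  refine ae_all_iff.2 fun n => ?_
  have h0 : μ (⋃ w ∈ {w : Fin n → ι | μ (word T P n ⁻¹' {w}) = 0}, word T P n ⁻¹' {w}) = 0 :=
    (measure_biUnion_null_iff (Set.to_countable _)).2 fun w hw => hw
  filter_upwards [measure_eq_zero_iff_ae_notMem.1 h0] with x hx
  refine ENNReal.toReal_pos (fun h => hx ?_) (measure_ne_top μ _)
  exact Set.mem_biUnion (x := word T P n x) h rfl

omit [Fintype ι] in
theorem gap_eq [IsFiniteMeasure μ] (hT : MeasurePreserving T μ μ) (hP : Measurable P) {n : ℕ}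
    {x : α} (h : 0 < μ.real (cyl T P (n + 1) x)) :
    0 < cond μ T P n (P x) (word T P n (T x)) ∧
      gap μ T P n x = -Real.log (cond μ T P n (P x) (word T P n (T x))) := by
  have e : μ.real ((word T P n ∘ T) ⁻¹' {word T P n (T x)}) = μ.real (cyl T P n (T x)) := by
    rw [Set.preimage_comp, measureReal_def, hT.measure_preimage
      ((measurable_word hT.measurable hP n) (measurableSet_singleton _)).nullMeasurableSet]
    rfl
  have hpos : 0 < μ.real (cyl T P n (T x)) := by
    refine h.trans_le ?_
    rw [← e, cyl_succ]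
    exact measureReal_mono Set.inter_subset_right
  rw [cond, e, ← cyl_succ]
  refine ⟨div_pos h hpos, ?_⟩
  rw [Real.log_div h.ne' hpos.ne', gap, info, info]
  ring

/-- **The maximal inequality.** -/
theorem measure_cond_lt_le [IsProbabilityMeasure μ] (hT : Measurable T) (hP : Measurable P)
    (i : ι) {c : ℝ} (hc : 0 ≤ c) :
    μ (P ⁻¹' {i} ∩ {x | ∃ n, cond μ T P n i (word T P n (T x)) < c}) ≤ ENNReal.ofReal c := by
  classical
  set U : ℕ → Set α := fun N => {x | ∃ n < N, cond μ T P n i (word T P n (T x)) < c}
  have key : ∀ N, μ.real (P ⁻¹' {i} ∩ U N) ≤ c * μ.real (U N) := fun N => by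
    induction N with
    | zero => simp [U]
    | succ N ih =>
      set S : Finset (Fin N → ι) := Finset.univ.filter fun w => cond μ T P N i w < c ∧
        ∀ m (h : m < N), ¬ cond μ T P m i (fun j => w (j.castLE h.le)) < c
      set D : Set α := (word T P N ∘ T) ⁻¹' S
      have hD : U (N + 1) = U N ∪ D := by
        ext x
        simp only [U, D, S, Set.mem_ofPred_eq, Set.mem_union, Set.mem_preimage, Finset.coe_filter,
          Finset.mem_univ, true_and, Function.comp_apply, Nat.lt_succ_iff_lt_or_eq]
        constructor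
        · rintro ⟨n, hn | rfl, h⟩
          · exact Or.inl ⟨n, hn, h⟩
          · by_cases hU : ∃ m < n, cond μ T P m i (word T P m (T x)) < c
            · exact Or.inl hU
            · exact Or.inr ⟨h, fun m hm h' => hU ⟨m, hm, h'⟩⟩
        · rintro (⟨n, hn, h⟩ | h)
          · exact ⟨n, Or.inl hn, h⟩
          · exact ⟨N, Or.inr rfl, h.1⟩
      have hdis : Disjoint (U N) D := Set.disjoint_left.2 fun x hx hxD => by
        obtain ⟨m, hm, h⟩ := hx
        simp only [D, S, Finset.coe_filter, Finset.mem_univ, true_and, Set.mem_preimage,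
          Set.mem_ofPred_eq] at hxD
        exact hxD.2 m hm h
      have hW : Measurable (word T P N ∘ T) := (measurable_word hT hP N).comp hT
      have hDm : MeasurableSet D := hW S.measurableSet
      have hDle : μ.real (P ⁻¹' {i} ∩ D) ≤ c * μ.real D := by
        rw [← sum_cond hT hP N i S,
          ← sum_measureReal_preimage_singleton S fun w _ => hW (measurableSet_singleton w),
          Finset.mul_sum]
        exact Finset.sum_le_sum fun w hw =>
          mul_le_mul_of_nonneg_right (Finset.mem_filter.1 hw).2.1.le measureReal_nonneg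
      rw [hD, Set.inter_union_distrib_left,
        measureReal_union (hdis.mono Set.inter_subset_right Set.inter_subset_right)
          ((hP (measurableSet_singleton i)).inter hDm), measureReal_union hdis hDm, mul_add]
      exact add_le_add ih hDle
  have hU : P ⁻¹' {i} ∩ {x | ∃ n, cond μ T P n i (word T P n (T x)) < c} =
      ⋃ N, P ⁻¹' {i} ∩ U N := by
    ext x
    simp only [U, Set.mem_inter_iff, Set.mem_ofPred_eq, Set.mem_iUnion]
    exact ⟨fun ⟨h, n, hn⟩ => ⟨n + 1, h, n, n.lt_succ_self, hn⟩,
      fun ⟨_, h, n, _, hn⟩ => ⟨h, n, hn⟩⟩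
  have hmono : Monotone fun N => P ⁻¹' {i} ∩ U N := fun a b hab =>
    Set.inter_subset_inter_right _ fun x ⟨n, hn, h⟩ => ⟨n, hn.trans_le hab, h⟩
  rw [hU, hmono.measure_iUnion]
  refine iSup_le fun N => ?_
  rw [← ofReal_measureReal]
  exact ENNReal.ofReal_le_ofReal ((key N).trans (mul_le_of_le_one_right hc measureReal_le_one))

/-- **The conditional informations have an integrable supremum.** -/
theorem exists_gap_bound [IsProbabilityMeasure μ] (hT : MeasurePreserving T μ μ)
    (hP : Measurable P) :
    ∃ G : α → ℝ, Integrable G μ ∧ ∀ᵐ x ∂μ, ∀ n, gap μ T P n x ∈ Set.Icc 0 (G x) := by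
  set s : α → ENNReal := fun x => ⨆ n, ENNReal.ofReal (gap μ T P n x)
  have hs : Measurable s := Measurable.iSup fun n =>
    (measurable_gap hT.measurable hP n).ennreal_ofReal
  have hbig : ∀ k : ℕ, μ {x | (k : ENNReal) < s x} ≤
      Fintype.card ι * ENNReal.ofReal (Real.exp (-1)) ^ k := fun k => by
    rw [← ENNReal.ofReal_pow (Real.exp_pos _).le, ← Real.exp_nat_mul, mul_neg_one]
    calc μ {x | (k : ENNReal) < s x}
        ≤ μ (⋃ i, P ⁻¹' {i} ∩
            {x | ∃ n, cond μ T P n i (word T P n (T x)) < Real.exp (-k)}) := by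
          refine measure_mono_ae ?_
          filter_upwards [ae_cyl_pos (μ := μ) (T := T) (P := P)] with x hx hk
          obtain ⟨n, hn⟩ := lt_iSup_iff.1 (show (k : ENNReal) < s x from hk)
          obtain ⟨hpos, he⟩ := gap_eq hT hP (hx (n + 1))
          rw [← ENNReal.ofReal_natCast, ENNReal.ofReal_lt_ofReal_iff_of_nonneg k.cast_nonneg,
            he] at hn
          exact Set.mem_iUnion.2 ⟨P x, rfl, n, (Real.log_lt_iff_lt_exp hpos).1 (by linarith)⟩
      _ ≤ ∑ i : ι, μ (P ⁻¹' {i} ∩
            {x | ∃ n, cond μ T P n i (word T P n (T x)) < Real.exp (-k)}) :=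
          measure_iUnion_fintype_le _ _
      _ ≤ ∑ _i : ι, ENNReal.ofReal (Real.exp (-k)) :=
          Finset.sum_le_sum fun i _ => measure_cond_lt_le hT.measurable hP i (Real.exp_pos _).le
      _ = _ := by rw [Finset.sum_const, nsmul_eq_mul, Finset.card_univ]
  have hm : ∀ k : ℕ, MeasurableSet {x | (k : ENNReal) < s x} := fun k =>
    measurableSet_lt measurable_const hs
  have hle : ∀ x, s x ≤
      1 + ∑' k : ℕ, {x | (k : ENNReal) < s x}.indicator (1 : α → ENNReal) x := fun x => by
    by_cases h : s x = ⊤
    · have : ∑' k : ℕ, {x | (k : ENNReal) < s x}.indicator (1 : α → ENNReal) x = ⊤ := by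
        simp [Set.indicator, h, ENNReal.natCast_lt_top]
      rw [this, add_top]
      exact le_top
    refine le_add_left ((le_of_eq (ENNReal.ofReal_toReal h).symm).trans ?_)
    calc ENNReal.ofReal (s x).toReal ≤ ENNReal.ofReal ⌈(s x).toReal⌉₊ :=
          ENNReal.ofReal_le_ofReal (Nat.le_ceil _)
      _ = ∑ k ∈ Finset.range ⌈(s x).toReal⌉₊,
            {x | (k : ENNReal) < s x}.indicator (1 : α → ENNReal) x := by
          rw [ENNReal.ofReal_natCast, Finset.sum_congr rfl fun k hk =>
            Set.indicator_of_mem ?_ _]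
          · simp
          show (k : ENNReal) < s x
          rw [← ENNReal.ofReal_toReal h, ← ENNReal.ofReal_natCast,
            ENNReal.ofReal_lt_ofReal_iff_of_nonneg k.cast_nonneg]
          exact Nat.lt_ceil.1 (Finset.mem_range.1 hk)
      _ ≤ _ := ENNReal.sum_le_tsum _
  have hfin : ∫⁻ x, s x ∂μ ≠ ⊤ := by
    refine ne_top_of_le_ne_top ?_ (lintegral_mono hle)
    rw [lintegral_add_left measurable_const, lintegral_const, measure_univ, one_mul,
      lintegral_tsum fun k => (measurable_one.indicator (hm k)).aemeasurable]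
    refine ENNReal.add_ne_top.2 ⟨ENNReal.one_ne_top, ne_top_of_le_ne_top ?_
      (ENNReal.tsum_le_tsum fun k => (lintegral_indicator_one (hm k)).trans_le (hbig k))⟩
    rw [ENNReal.tsum_mul_left, ENNReal.tsum_geometric]
    exact ENNReal.mul_ne_top (by simp) (ENNReal.inv_ne_top.2 (tsub_pos_of_lt
      (by simp [ENNReal.ofReal_lt_one])).ne')
  refine ⟨fun x => (s x).toReal, integrable_toReal_of_lintegral_ne_top hs.aemeasurable hfin, ?_⟩
  filter_upwards [ae_cyl_pos (μ := μ) (T := T) (P := P), ae_lt_top hs hfin] with x hx hfx n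
  obtain ⟨hpos, he⟩ := gap_eq hT hP (hx (n + 1))
  refine ⟨he ▸ neg_nonneg.2 (Real.log_nonpos hpos.le (cond_le_one n _ _)), ?_⟩
  exact (le_max_left _ 0).trans ((ENNReal.toReal_ofReal').symm.trans_le
    (ENNReal.toReal_mono hfx.ne (le_iSup (fun k => ENNReal.ofReal (gap μ T P k x)) n)))

/-- The futures increase. -/
def future (T : α → α) (P : α → ι) (hT : Measurable T) (hP : Measurable P) : Filtration ℕ mα where
  seq n := MeasurableSpace.comap (word T P n ∘ T) inferInstance
  mono' m n hmn := by
    show MeasurableSpace.comap ((fun w j => w (Fin.castLE hmn j)) ∘ (word T P n ∘ T)) _ ≤ _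
    rw [← MeasurableSpace.comap_comp]
    exact MeasurableSpace.comap_mono
      (measurable_pi_iff.2 fun j => measurable_pi_apply _).comap_le
  le' n := ((measurable_word hT hP n).comp hT).comap_le

/-- **The conditional informations converge.** -/
theorem exists_gap_limit [IsProbabilityMeasure μ] (hT : MeasurePreserving T μ μ)
    (hP : Measurable P) :
    ∀ᵐ x ∂μ, ∃ l, Tendsto (fun n => gap μ T P n x) atTop (𝓝 l) := by
  obtain ⟨G, -, hG⟩ := exists_gap_bound hT hP
  filter_upwards [hG, ae_cyl_pos (μ := μ) (T := T) (P := P),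
    ae_all_iff.2 fun i => ae_all_iff.2 fun n => cond_ae_eq_condExp hT.measurable hP n i,
    ae_all_iff.2 fun i : ι => tendsto_ae_condExp (ℱ := future T P hT.measurable hP)
      ((P ⁻¹' {i}).indicator fun _ => (1 : ℝ))] with x hx hpos heq hlim
  have hc : Tendsto (fun n => cond μ T P n (P x) (word T P n (T x))) atTop _ :=
    (hlim (P x)).congr fun n => (heq (P x) n).symm
  have hb : ∀ n, Real.exp (-G x) ≤ cond μ T P n (P x) (word T P n (T x)) := fun n => by
    obtain ⟨hp, he⟩ := gap_eq hT hP (hpos (n + 1))
    refine le_of_le_of_eq (Real.exp_le_exp.2 ?_) (Real.exp_log hp)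
    linarith [(hx n).2]
  exact ⟨_, (((Real.continuousAt_log ((Real.exp_pos _).trans_le (ge_of_tendsto' hc hb)).ne'
    ).tendsto.comp hc).neg).congr fun n => (gap_eq hT hP (hpos (n + 1))).2.symm⟩

end FA.ShannonMcMillan

end
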