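import Fermat.Agent.PointwiseErgodic.Birkhoff
import Fermat.Agent.ShannonMcMillan.Cylinders
import Mathlib.Analysis.SpecialFunctions.Log.NegMulLog
import Mathlib.Analysis.Asymptotics.SpecificAsymptotics
import Mathlib.Analysis.SpecificLimits.Basic

/-!
# The theorem of Shannon, McMillan and Breiman

Maker's lemma replaces the conditional informations along an orbit by their limit, the theorem of
Birkhoff gives the almost everywhere limit and Scheffé's trick the limit in mean.
-/

set_option autoImplicit false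

noncomputable section

open MeasureTheory Filter Topology MeasurableSpace

namespace FA.ShannonMcMillan

variable {α ι : Type*} {mα : MeasurableSpace α} {μ : Measure α} {T : α → α} {P : α → ι}

/-- **Maker's lemma.** -/
theorem tendsto_sum_reflect [IsProbabilityMeasure μ] (hT : MeasurePreserving T μ μ)
    {f : ℕ → α → ℝ} {g G : α → ℝ} (hf : ∀ n, Measurable (f n)) (hg : Measurable g)
    (hG : Integrable G μ) (hb : ∀ᵐ x ∂μ, ∀ n, |f n x| ≤ G x)
    (hlim : ∀ᵐ x ∂μ, Tendsto (fun n => f n x) atTop (𝓝 (g x))) :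
    ∀ᵐ x ∂μ, Tendsto (fun n : ℕ => (∑ j ∈ Finset.range n, f (n - 1 - j) (T^[j] x)) / n) atTop
      (𝓝 (μ[g | invariants T] x)) := by
  have hgb : ∀ᵐ x ∂μ, |g x| ≤ G x := by
    filter_upwards [hb, hlim] with x hx hl
    exact le_of_tendsto' hl.abs hx
  have hgi : Integrable g μ := hG.mono' hg.aestronglyMeasurable hgb
  set F : ℕ → α → ℝ := fun N x => ⨆ k, |f (k + N) x - g x| with hF
  have hgood : ∀ᵐ x ∂μ, (∀ k, |f k x - g x| ≤ 2 * G x) ∧
      Tendsto (fun N => F N x) atTop (𝓝 0) := by
    filter_upwards [hb, hgb, hlim] with x hx hgx hl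
    refine ⟨fun k => (abs_sub _ _).trans (by linarith [hx k]),
      Metric.tendsto_atTop.2 fun ε hε => ?_⟩
    obtain ⟨N₀, hN₀⟩ := Metric.tendsto_atTop.1 hl (ε / 2) (half_pos hε)
    refine ⟨N₀, fun N hN => ?_⟩
    rw [Real.dist_0_eq_abs, abs_of_nonneg (Real.iSup_nonneg fun k => abs_nonneg _)]
    refine lt_of_le_of_lt (ciSup_le fun k => ?_) (half_lt_self hε)
    exact (hN₀ (k + N) (by omega)).le
  have hF0 : ∀ N x, 0 ≤ F N x := fun N x => Real.iSup_nonneg fun k => abs_nonneg _
  have hFm : ∀ N, Measurable (F N) := fun N =>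
    Measurable.iSup fun k => continuous_abs.measurable.comp ((hf (k + N)).sub hg)
  have hFG : ∀ N, ∀ᵐ x ∂μ, ‖F N x‖ ≤ 2 * G x := fun N => by
    filter_upwards [hgood] with x hx
    rw [Real.norm_eq_abs, abs_of_nonneg (hF0 N x)]
    exact ciSup_le fun k => hx.1 (k + N)
  have hFi : ∀ N, Integrable (F N) μ := fun N =>
    (hG.const_mul 2).mono' (hFm N).aestronglyMeasurable (hFG N)
  have hint : Tendsto (fun N => ∫ x, F N x ∂μ) atTop (𝓝 0) := by
    simpa using tendsto_integral_of_dominated_convergence (F := F) (f := fun _ => (0 : ℝ)) _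
      (fun N => (hFm N).aestronglyMeasurable) (hG.const_mul 2) hFG
      (hgood.mono fun x hx => hx.2)
  have hsmall : ∀ᵐ x ∂μ, ∀ ε > 0, ∃ N, μ[F N | invariants T] x < ε := by
    have hm : AEMeasurable (fun x => ⨅ N, ENNReal.ofReal (μ[F N | invariants T] x)) μ :=
      AEMeasurable.iInf fun N => integrable_condExp.aemeasurable.ennreal_ofReal
    have h0 : ∫⁻ x, ⨅ N, ENNReal.ofReal (μ[F N | invariants T] x) ∂μ = 0 := by
      refine le_antisymm (ge_of_tendsto' (x := atTop)
        (by simpa using ENNReal.tendsto_ofReal hint) fun N => ?_) zero_le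
      rw [← integral_condExp (invariants_le T) (f := F N),
        ofReal_integral_eq_lintegral_ofReal integrable_condExp
          (condExp_nonneg (Eventually.of_forall (hF0 N)))]
      exact lintegral_mono fun x => iInf_le _ N
    filter_upwards [(lintegral_eq_zero_iff' hm).1 h0] with x hx ε hε
    simp only [Pi.zero_apply] at hx
    obtain ⟨N, hN⟩ := iInf_lt_iff.1 (hx.trans_lt (ENNReal.ofReal_pos.2 hε))
    exact ⟨N, (ENNReal.ofReal_lt_ofReal_iff hε).1 hN⟩
  have horb : ∀ᵐ x ∂μ, ∀ j k : ℕ, |f k (T^[j] x) - g (T^[j] x)| ≤ 2 * G (T^[j] x) :=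
    ae_all_iff.2 fun j => ((hT.iterate j).quasiMeasurePreserving.ae hgood).mono fun x hx => hx.1
  filter_upwards [hsmall, horb, PointwiseErgodic.tendsto_average hT hG,
    PointwiseErgodic.tendsto_average hT hgi,
    ae_all_iff.2 fun N => PointwiseErgodic.tendsto_average hT (hFi N)] with x hx hjk hAG hAg hAF
  simp only [birkhoffAverage, birkhoffSum, smul_eq_mul, inv_mul_eq_div] at hAG hAg hAF
  rw [Metric.tendsto_atTop]
  intro ε hε
  obtain ⟨N, hN⟩ := hx (ε / 4) (by linarith)
  set S : ℕ → ℝ := fun n => ∑ j ∈ Finset.range n, G (T^[j] x)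
  have hS : Tendsto (fun m => (S (m + N) - S m) / ((m + N : ℕ) : ℝ)) atTop (𝓝 0) := by
    have h1 : Tendsto (fun m => S (m + N) / ((m + N : ℕ) : ℝ)) atTop
        (𝓝 (μ[G | invariants T] x)) :=
      (tendsto_add_atTop_iff_nat (f := fun n => S n / (n : ℝ)) N).2 hAG
    have h2 : Tendsto (fun m => S m / ((m + N : ℕ) : ℝ)) atTop (𝓝 (μ[G | invariants T] x)) := by
      have h3 := hAG.mul (tendsto_natCast_div_add_atTop (N : ℝ))
      rw [mul_one] at h3
      refine h3.congr' ((eventually_ge_atTop 1).mono fun m hm => ?_)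
      have : (m : ℝ) ≠ 0 := Nat.cast_ne_zero.2 (by omega)
      push_cast
      field_simp
      rfl
    simpa [sub_div] using h1.sub h2
  obtain ⟨M₁, hM₁⟩ := Metric.tendsto_atTop.1 hS (ε / 8) (by linarith)
  obtain ⟨M₂, hM₂⟩ := Metric.tendsto_atTop.1 hAg (ε / 4) (by linarith)
  obtain ⟨M₃, hM₃⟩ := eventually_atTop.1 ((hAF N).eventually_lt_const hN)
  refine ⟨max (M₁ + N) (max M₂ M₃), fun n hn => ?_⟩
  obtain ⟨m, rfl⟩ : ∃ m, n = m + N := ⟨n - N, by omega⟩
  have h1 := hM₁ m (by omega)
  have h2 := hM₂ (m + N) (by omega)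
  have h3 := hM₃ (m + N) (by omega)
  rw [Real.dist_eq] at h1 h2 ⊢
  rw [sub_zero] at h1
  have hd : |(∑ j ∈ Finset.range (m + N), f (m + N - 1 - j) (T^[j] x)) -
      ∑ j ∈ Finset.range (m + N), g (T^[j] x)| ≤
      (∑ j ∈ Finset.range (m + N), F N (T^[j] x)) + 2 * (S (m + N) - S m) := by
    rw [← Finset.sum_sub_distrib]
    refine (Finset.abs_sum_le_sum_abs _ _).trans ?_
    rw [← Finset.sum_range_add_sum_Ico _ (Nat.le_add_right m N)]
    refine add_le_add ?_ ?_
    · refine (Finset.sum_le_sum fun j hj => ?_).trans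
        (Finset.sum_le_sum_of_subset_of_nonneg
          (Finset.range_mono (Nat.le_add_right m N)) fun j _ _ => hF0 N _)
      rw [Finset.mem_range] at hj
      have e : m + N - 1 - j = (m - 1 - j) + N := by omega
      rw [e]
      exact le_ciSup (f := fun k => |f (k + N) (T^[j] x) - g (T^[j] x)|)
        ⟨2 * G (T^[j] x), by rintro _ ⟨k, rfl⟩; exact hjk j _⟩ _
    · refine (Finset.sum_le_sum fun j _ => hjk j _).trans (le_of_eq ?_)
      rw [← Finset.mul_sum, Finset.sum_Ico_eq_sub _ (Nat.le_add_right m N)]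
  have hd' := div_le_div_of_nonneg_right hd (Nat.cast_nonneg (α := ℝ) (m + N))
  rw [← abs_of_nonneg (Nat.cast_nonneg (α := ℝ) (m + N)), ← abs_div,
    abs_of_nonneg (Nat.cast_nonneg (α := ℝ) (m + N)), add_div, sub_div, mul_div_assoc] at hd'
  rw [abs_lt] at h1 h2 ⊢
  rw [abs_le] at hd'
  constructor <;> linarith

/-- Scheffé: nonnegative functions converging almost everywhere with their integrals converge in
mean. -/
theorem tendsto_integral_abs_sub {a : ℕ → α → ℝ} {L : α → ℝ} (ha : ∀ n, Integrable (a n) μ)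
    (ha0 : ∀ n, 0 ≤ᵐ[μ] a n) (hL : Integrable L μ)
    (hlim : ∀ᵐ x ∂μ, Tendsto (fun n => a n x) atTop (𝓝 (L x)))
    (hint : Tendsto (fun n => ∫ x, a n x ∂μ) atTop (𝓝 (∫ x, L x ∂μ))) :
    Tendsto (fun n => ∫ x, |a n x - L x| ∂μ) atTop (𝓝 0) := by
  have hpos : Tendsto (fun n => ∫ x, max (L x - a n x) 0 ∂μ) atTop (𝓝 0) := by
    simpa using tendsto_integral_of_dominated_convergence
      (F := fun n x => max (L x - a n x) 0) (f := fun _ => (0 : ℝ)) (fun x => |L x|)
      (fun n => (hL.sub (ha n)).pos_part.aestronglyMeasurable) hL.abs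
      (fun n => by
        filter_upwards [ha0 n] with x hx
        simp only [Pi.zero_apply] at hx
        rw [Real.norm_eq_abs, abs_of_nonneg (le_max_right _ _)]
        exact max_le ((sub_le_self _ hx).trans (le_abs_self _)) (abs_nonneg _))
      (hlim.mono fun x hx => by
        simpa using (hx.const_sub (L x)).max (tendsto_const_nhds (x := (0 : ℝ))))
  have h := (hint.sub_const (∫ x, L x ∂μ)).add (hpos.const_mul 2)
  rw [sub_self, mul_zero, add_zero] at h
  refine h.congr fun n => ?_
  rw [← integral_sub (ha n) hL, ← integral_const_mul, ← integral_add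
    (f := fun x => a n x - L x) (g := fun x => 2 * max (L x - a n x) 0) ((ha n).sub hL)
    ((hL.sub (ha n)).pos_part.const_mul 2)]
  refine integral_congr_ae (Eventually.of_forall fun x => ?_)
  simp only
  rcases le_total (a n x) (L x) with h' | h'
  · rw [max_eq_left (by linarith), abs_of_nonpos (by linarith)]; ring
  · rw [max_eq_right (by linarith), abs_of_nonneg (by linarith)]; ring

variable [Fintype ι] [MeasurableSpace ι] [MeasurableSingletonClass ι]

/-- The entropy of the partition into `n`-cylinders. -/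
theorem integral_info [IsFiniteMeasure μ] (hT : Measurable T) (hP : Measurable P) (n : ℕ) :
    ∫ x, info μ T P n x ∂μ =
      ∑ w : Fin n → ι, Real.negMulLog (μ.real (word T P n ⁻¹' {w})) := by
  classical
  have h := integral_map (μ := μ) (f := fun w => -Real.log (μ.real (word T P n ⁻¹' {w})))
    (measurable_word hT hP n).aemeasurable
    (measurable_of_finite _).stronglyMeasurable.aestronglyMeasurable
  rw [show (∫ x, info μ T P n x ∂μ) = _ from h.symm, integral_fintype Integrable.of_finite]
  refine Finset.sum_congr rfl fun w _ => ?_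
  rw [map_measureReal_apply (measurable_word hT hP n) (measurableSet_singleton w), smul_eq_mul,
    Real.negMulLog]
  ring

/-- **Shannon, McMillan and Breiman**: the limit and its integral. -/
theorem exists_entropy_limit [IsProbabilityMeasure μ] (hT : MeasurePreserving T μ μ)
    (hP : Measurable P) :
    ∃ L : α → ℝ, Measurable L ∧ Integrable L μ ∧ L ∘ T = L ∧
      (∀ᵐ x ∂μ, Tendsto (fun n : ℕ => info μ T P n x / n) atTop (𝓝 (L x))) ∧
      Tendsto (fun n : ℕ => (∫ x, info μ T P n x ∂μ) / n) atTop (𝓝 (∫ x, L x ∂μ)) ∧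
      Tendsto (fun n : ℕ => ∫ x, |info μ T P n x / n - L x| ∂μ) atTop (𝓝 0) := by
  obtain ⟨G, hG, hb⟩ := exists_gap_bound hT hP
  obtain ⟨g, hgm, hlim⟩ := measurable_limit_of_tendsto_metrizable_ae
    (fun n => (measurable_gap hT.measurable hP n).aemeasurable) (exists_gap_limit hT hP)
  have hgb : ∀ᵐ x ∂μ, ∀ n, |gap μ T P n x| ≤ G x :=
    hb.mono fun x hx n => by rw [abs_of_nonneg (hx n).1]; exact (hx n).2
  have hae := tendsto_sum_reflect hT (measurable_gap hT.measurable hP) hgm hG hgb hlim
  simp only [← info_eq_sum_gap] at hae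
  have hgi : Integrable g μ := hG.mono' hgm.aestronglyMeasurable (by
    filter_upwards [hgb, hlim] with x hx hl
    exact le_of_tendsto' hl.abs hx)
  have hgap : Tendsto (fun k => ∫ x, gap μ T P k x ∂μ) atTop (𝓝 (∫ x, g x ∂μ)) :=
    tendsto_integral_of_dominated_convergence G
      (fun n => (measurable_gap hT.measurable hP n).aestronglyMeasurable) hG
      (fun n => hgb.mono fun x hx => hx n) hlim
  have hmean : Tendsto (fun n : ℕ => (∫ x, info μ T P n x ∂μ) / n) atTop
      (𝓝 (∫ x, μ[g | invariants T] x ∂μ)) := by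
    rw [integral_condExp (invariants_le T)]
    refine hgap.cesaro.congr fun n => ?_
    rw [inv_mul_eq_div]
    congr 1
    rw [← Finset.sum_range_reflect, integral_congr_ae
      (Eventually.of_forall (info_eq_sum_gap (μ := μ) (T := T) (P := P) n)),
      integral_finsetSum (f := fun j x => gap μ T P (n - 1 - j) (T^[j] x)) (Finset.range n)
        fun j _ =>
        (hT.iterate j).integrable_comp_of_integrable (integrable_gap hT hP _)]
    refine Finset.sum_congr rfl fun j _ => ?_
    have := integral_map (μ := μ) (f := gap μ T P (n - 1 - j))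
      (hT.iterate j).measurable.aemeasurable
      (measurable_gap hT.measurable hP _).aestronglyMeasurable
    rwa [(hT.iterate j).map_eq] at this
  refine ⟨μ[g | invariants T], stronglyMeasurable_condExp.measurable.mono (invariants_le T) le_rfl,
    integrable_condExp, PointwiseErgodic.condExp_comp_eq T g, hae, hmean, ?_⟩
  exact tendsto_integral_abs_sub (fun n => (integrable_info hT.measurable hP n).div_const _)
    (fun n => Eventually.of_forall fun x => div_nonneg (info_nonneg n x) n.cast_nonneg)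
    integrable_condExp hae (by simpa [integral_div] using hmean)

/-- **Shannon, McMillan and Breiman for ergodic maps.** -/
theorem exists_entropy_limit_ergodic [IsProbabilityMeasure μ] (hT : Ergodic T μ)
    (hP : Measurable P) :
    ∃ h : ℝ, 0 ≤ h ∧
      (∀ᵐ x ∂μ, Tendsto (fun n : ℕ => info μ T P n x / n) atTop (𝓝 h)) ∧
      Tendsto (fun n : ℕ => (∫ x, info μ T P n x ∂μ) / n) atTop (𝓝 h) ∧
      Tendsto (fun n : ℕ => ∫ x, |info μ T P n x / n - h| ∂μ) atTop (𝓝 0) := by
  obtain ⟨L, -, hLi, hLT, hae, hmean, h1⟩ := exists_entropy_limit hT.toMeasurePreserving hP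
  obtain ⟨c, hc⟩ := hT.ae_eq_const_of_ae_eq_comp_ae hLi.aestronglyMeasurable
    (EventuallyEq.of_eq hLT)
  have hI : ∫ x, L x ∂μ = c := by rw [integral_congr_ae hc]; simp
  refine ⟨c, ?_, ?_, hI ▸ hmean, h1.congr fun n => ?_⟩
  · refine ge_of_tendsto' (hI ▸ hmean) fun n => div_nonneg ?_ n.cast_nonneg
    exact integral_nonneg fun x => info_nonneg n x
  · filter_upwards [hae, hc] with x hx hx'
    rwa [hx'] at hx
  · exact integral_congr_ae (hc.mono fun x hx => by simp [hx])

end FA.ShannonMcMillan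

end
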